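/-
Program G (S28, Igusa: `X₀(N)` has integral fibres in characteristic `ℓ ∤ N`) — helper4 (integrator).

Top-level interface between the chapters `IG/VAL` (valuations, the three chart algebras stay domains
after any base change to characteristic `ℓ`) and `IG/SCH` (scheme gluing), and the final reduction
`s28_of`:  (DOM) + (SCH) ⇒ the frozen statement S28.

* `ChartDomainAt N ℓ K` (DOM at `K`): `A ⊗[ℤ_(ℓ)] K` is a domain for the three chart algebras
  `A = chartAlgFin / chartAlgInf / chartAlgMid N ℓ`;
* `ChartDomain N ℓ` : (DOM) for every field `K` of characteristic `ℓ` (deliverable of `IG/VAL`, needs `ℓ ∤ N`);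
* `SchemeStep N ℓ` : (DOM at `K`) ⇒ the pullback of the Igusa scheme to `Spec K` is integral
  (deliverable of `IG/SCH`, no arithmetic);
* `s28_of` : the two together give S28 verbatim.
-/
import Mathlib
import Fermat.Prelude.Def_ModularCurve_IgusaScheme
import Fermat.Prelude.Def_ModularCurve_X0ModL

set_option autoImplicit false

open AlgebraicGeometry CategoryTheory CategoryTheory.Limits ModularCurve ModularCurve.IgusaScheme
open scoped TensorProduct

noncomputable section

namespace Fermat.Agent.IG.Interface4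

variable (N : ℕ) [NeZero N] (ℓ : ℕ) [Fact ℓ.Prime]

/-- **(DOM) at `K`**: the three chart algebras stay domains after base change to `K`. -/
def ChartDomainAt (K : Type) [Field K] [Algebra ↥(GaloisRep.ratLocalizedAt ℓ) K] : Prop :=
  IsDomain (↥(chartAlgFin N ℓ) ⊗[↥(GaloisRep.ratLocalizedAt ℓ)] K) ∧
    IsDomain (↥(chartAlgInf N ℓ) ⊗[↥(GaloisRep.ratLocalizedAt ℓ)] K) ∧
      IsDomain (↥(chartAlgMid N ℓ) ⊗[↥(GaloisRep.ratLocalizedAt ℓ)] K)

/-- **(DOM)**: for every field `K` of characteristic `ℓ` (with a `ℤ_(ℓ)`-algebra structure) the three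
chart algebras stay domains after base change to `K`.  Deliverable of `IG/VAL` (for `ℓ ∤ N`). -/
def ChartDomain : Prop :=
  ∀ (K : Type) [Field K] [CharP K ℓ] [Algebra ↥(GaloisRep.ratLocalizedAt ℓ) K],
    ChartDomainAt N ℓ K

/-- **(SCH)**: scheme gluing.  If the three chart algebras are domains after base change to `K`,
the pullback of the Igusa scheme to `Spec K` is integral.  Deliverable of `IG/SCH`. -/
def SchemeStep : Prop :=
  ∀ (K : Type) [Field K] [Algebra ↥(GaloisRep.ratLocalizedAt ℓ) K], ChartDomainAt N ℓ K →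
    IsIntegral ↑(pullback (igusaTo N ℓ)
      (Spec.map (CommRingCat.ofHom (algebraMap ↥(GaloisRep.ratLocalizedAt ℓ) K))))

/-- **S28 from (DOM) and (SCH)**, in the literal shape of the frozen statement. -/
theorem s28_of (hdom : ChartDomain N ℓ) (hsch : SchemeStep N ℓ)
    (K : Type) [Field K] [CharP K ℓ] [Algebra ↥(GaloisRep.ratLocalizedAt ℓ) K] :
    IsIntegral ↑(pullback (igusaTo N ℓ)
      (Spec.map (CommRingCat.ofHom (algebraMap ↥(GaloisRep.ratLocalizedAt ℓ) K)))) :=
  hsch K (hdom K)

end Fermat.Agent.IG.Interface4
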