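import Fermat.Agent.IG.SCH.SchemeStep13
import Fermat.Agent.IG.VAL.ValFinal8
import Fermat.Agent.IG.VAL.UpperBound8
import Fermat.Agent.IG.VAL.F2Final15
import Fermat.Agent.IG.VAL.OvBasics22
import Fermat.Agent.IG.PR.Main20
import Fermat.Agent.IG.AN.DegLeVal23
import Fermat.Agent.IG.AN.ModPoly3
import Fermat.Agent.IG.AN.P2Final9
import Fermat.Agent.IG.AN.FormalJ10

/-!
# Program G (S28): assembly of the four chapters

Everything on main is plugged together here; the ONLY remaining input is (SPAN):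

  `hspan : ValInterface8.DegLe N → ValInterface8.Irr ℓ N → ValFinal8.IntegralOv ℓ N`.

* `ov1`, `resContains`, `ubAll : UBDef8.UB ℓ M` (unconditional upper bound, all `M`),
* `irr : ¬ ℓ ∣ N → ValInterface8.Irr ℓ N` (unconditional (IRR_N): AN's P0, P1, P2 + PR's `irr_of_ub`
  + VAL's `UB`),
* `chartDomain_of_span`, `s28_of_span` : (SPAN) ⇒ `Interface4.ChartDomain N ℓ` ⇒ the frozen
  statement S28 in its literal shape.
-/

set_option autoImplicit false

open AlgebraicGeometry CategoryTheory CategoryTheory.Limits ModularCurve ModularCurve.IgusaScheme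

noncomputable section

namespace Fermat.Agent.IG.S28Assembly13

open Fermat.Agent.IG Fermat.Agent.IG.VAL Fermat.Agent.IG.PR Fermat.Agent.IG.AN

/-- (OV1), from `OvBasics22`. -/
theorem ov1 (ℓ : ℕ) [Fact ℓ.Prime] : UpperBound8.OV1 ℓ :=
  fun _ hc hq => OvBasics22.gaussRed_mem_kj ℓ hq hc

/-- (F2), from `F2Final15`. -/
theorem resContains (ℓ : ℕ) [Fact ℓ.Prime] (M : ℕ) : UpperBound8.ResidueContains ℓ M := by
  intro y hy
  obtain ⟨f, hf, hfM, hred⟩ := F2Final15.f2 ℓ M y hy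
  exact ⟨⟨f, hf⟩, hfM, hred⟩

/-- **(UB_M)** for every level `M`, unconditionally. -/
theorem ubAll (ℓ : ℕ) [Fact ℓ.Prime] (M : ℕ) [NeZero M] : UBDef8.UB ℓ M :=
  UpperBound8.ub M (DegLeVal23.degLe M) (ov1 ℓ) (resContains ℓ M)

/-- **(IRR_N)** for `ℓ ∤ N`, unconditionally. -/
theorem irr (ℓ N : ℕ) [Fact ℓ.Prime] [NeZero N] (hℓN : ¬ ℓ ∣ N) : ValInterface8.Irr ℓ N :=
  Main20.irr_of_ub ℓ N hℓN FormalJ10.p1
    (fun r hr _ hne => by have := hne; exact ModPoly3.p0 r hr)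
    (fun r _ _ hne => by have := hne; exact P2Final9.p2 r)
    (fun M _ hne => by have := hne; exact ubAll ℓ M)

/-- (DOM) from (SPAN). -/
theorem chartDomain_of_span (ℓ N : ℕ) [Fact ℓ.Prime] [NeZero N] (hℓN : ¬ ℓ ∣ N)
    (hspan : ValInterface8.DegLe N → ValInterface8.Irr ℓ N → ValFinal8.IntegralOv ℓ N) :
    Interface4.ChartDomain N ℓ :=
  ValFinal8.chartDomain ℓ N (hspan (DegLeVal23.degLe N) (irr ℓ N hℓN))

/-- **S28 from (SPAN)**, in the literal shape of the frozen statement. -/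
theorem s28_of_span (N : ℕ) [NeZero N] (ℓ : ℕ) [Fact ℓ.Prime] (hℓN : ¬ ℓ ∣ N)
    (hspan : ValInterface8.DegLe N → ValInterface8.Irr ℓ N → ValFinal8.IntegralOv ℓ N)
    (K : Type) [Field K] [CharP K ℓ] [Algebra ↥(GaloisRep.ratLocalizedAt ℓ) K] :
    IsIntegral ↑(pullback (igusaTo N ℓ)
      (Spec.map (CommRingCat.ofHom (algebraMap ↥(GaloisRep.ratLocalizedAt ℓ) K)))) :=
  SCH.SchemeStep13.s28_of_chartDomain N ℓ (chartDomain_of_span ℓ N hℓN hspan) K

end Fermat.Agent.IG.S28Assembly13
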